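import Mathlib
import Fermat.Agent.S59.MFree.Spec
import Fermat.Agent.S41.H761.HKTransfer

/-!
# Row S59, block M-FREE, leaves (N1), (N2), (N3) (helper57)

Restriction and corestriction between `Γ` and the normal subgroup `Γ' = ker κ`:

* `resCor  : ResCorStatement`   — `res ∘ cor = ∑_{d ∈ D} d`,
* `corRes  : CorResStatement`   — `cor ∘ res = |D|`,
* `corConj : CorConjStatement`  — `cor ∘ (conjAct g) = cor`.

Everything is reduced to the coset systems of `S41/H761/CosetSystem.lean`.
-/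

set_option autoImplicit false

namespace Fermat.Agent.S59.MFree.H57

open Fermat.Agent.S41.Spec Fermat.Agent.S41.H761 Fermat.Agent.S59.MFree
open scoped MatrixGroups

universe u

section Basic

variable {Γ : Subgroup SL(2, ℤ)} {D : Type*} [Group D] (κ : Γ →* D)

/-- The inclusion `ker κ → Γ`. -/
abbrev incl57 : kerSub κ →* Γ := Subgroup.inclusion (kerSub_le κ)

theorem incl57_injective : Function.Injective (incl57 κ) := Subgroup.inclusion_injective _

theorem incl57_coe (h : kerSub κ) : ((incl57 κ h : Γ) : SL(2, ℤ)) = (h : SL(2, ℤ)) := rfl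

theorem kappa_incl57 (h : kerSub κ) : κ (incl57 κ h) = 1 := by
  obtain ⟨h1, h2⟩ := mem_kerSub.mp h.2
  exact h2

theorem mem_range_incl57 {g : Γ} : g ∈ (incl57 κ).range ↔ κ g = 1 := by
  constructor
  · rintro ⟨h, rfl⟩
    exact kappa_incl57 κ h
  · intro hg
    exact ⟨⟨g.1, mem_kerSub.mpr ⟨g.2, hg⟩⟩, rfl⟩

theorem range_incl57 : (incl57 κ).range = κ.ker := by
  ext g
  rw [mem_range_incl57, MonoidHom.mem_ker]

theorem finiteIndex_range_incl57 [Finite D] : (incl57 κ).range.FiniteIndex := by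
  rw [range_incl57]
  infer_instance

/-- The element of `ker κ` attached to an element of `Γ` killed by `κ`. -/
def toKer57 (g : Γ) (hg : κ g = 1) : kerSub κ := ⟨g.1, mem_kerSub.mpr ⟨g.2, hg⟩⟩

@[simp] theorem incl57_toKer57 (g : Γ) (hg : κ g = 1) : incl57 κ (toKer57 κ g hg) = g := rfl

theorem incl57_conjKer (g : Γ) (h : kerSub κ) :
    incl57 κ (conjKer κ g h) = g⁻¹ * incl57 κ h * g := rfl

variable {A : Type*} [AddCommGroup A]

/-- A class on `ker κ` does not see conjugation by elements of `ker κ`. -/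
theorem apply_conj_ker57 (x : Additive (kerSub κ) →+ A) (n a : kerSub κ) :
    x (Additive.ofMul (n⁻¹ * a * n)) = x (Additive.ofMul a) := by
  simp only [ofMul_mul, ofMul_inv, map_add, map_neg]
  abel

/-- The diamond operator of `g` only depends on `κ g`. -/
theorem apply_conjKer_congr57 (x : Additive (kerSub κ) →+ A) {g g' : Γ} (hg : κ g = κ g')
    (h : kerSub κ) :
    x (Additive.ofMul (conjKer κ g' h)) = x (Additive.ofMul (conjKer κ g h)) := by
  have hn : κ (g⁻¹ * g') = 1 := by rw [map_mul, map_inv, hg, inv_mul_cancel]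
  have e : conjKer κ g' h = (toKer57 κ _ hn)⁻¹ * conjKer κ g h * toKer57 κ _ hn := by
    apply incl57_injective κ
    rw [map_mul, map_mul, map_inv, incl57_toKer57, incl57_conjKer, incl57_conjKer]
    group
  rw [e, apply_conj_ker57]

theorem conjAct_congr57 (x : Additive (kerSub κ) →+ A) {g g' : Γ} (hg : κ g = κ g') :
    conjAct κ g' x = conjAct κ g x := by
  refine AddMonoidHom.ext fun h' => ?_
  obtain ⟨h, rfl⟩ : ∃ h : kerSub κ, Additive.ofMul h = h' := ⟨Additive.toMul h', rfl⟩
  rw [conjAct_apply, conjAct_apply]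
  exact apply_conjKer_congr57 κ x hg h

/-- `Γ ⧸ ker κ ≃ D` through a section. -/
noncomputable def quotEquiv57 (s : D → Γ) (hs : ∀ d, κ (s d) = d) :
    (Γ ⧸ (incl57 κ).range) ≃ D :=
  Equiv.ofBijective (fun q => κ q.out) <| by
    constructor
    · intro q q' hqq
      have hqq' : κ q.out = κ q'.out := hqq
      have h1 : (q.out)⁻¹ * q'.out ∈ (incl57 κ).range := by
        rw [mem_range_incl57, map_mul, map_inv, hqq', inv_mul_cancel]
      have h2 : ((q.out : Γ) : Γ ⧸ (incl57 κ).range) = ((q'.out : Γ) : Γ ⧸ (incl57 κ).range) :=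
        QuotientGroup.eq.mpr h1
      rwa [QuotientGroup.out_eq', QuotientGroup.out_eq'] at h2
    · intro d
      refine ⟨((s d : Γ) : Γ ⧸ (incl57 κ).range), ?_⟩
      obtain ⟨n, hn⟩ := QuotientGroup.mk_out_eq_mul (incl57 κ).range (s d)
      show κ (((s d : Γ) : Γ ⧸ (incl57 κ).range).out) = d
      rw [hn, map_mul, hs, (mem_range_incl57 κ).mp n.2, mul_one]

theorem quotEquiv57_apply (s : D → Γ) (hs : ∀ d, κ (s d) = d) (q : Γ ⧸ (incl57 κ).range) :
    quotEquiv57 κ s hs q = κ q.out := rfl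

end Basic

/-! ## (N1) -/

theorem resCor : ResCorStatement.{u} := by
  intro Γ D _ _ κ s hs A _ x
  classical
  have hf := incl57_injective κ
  have : (incl57 κ).range.FiniteIndex := finiteIndex_range_incl57 κ
  let _ : Fintype (Γ ⧸ (incl57 κ).range) := (incl57 κ).range.fintypeQuotientOfFiniteIndex
  refine AddMonoidHom.ext fun h' => ?_
  obtain ⟨h, rfl⟩ : ∃ h : kerSub κ, Additive.ofMul h = h' := ⟨Additive.toMul h', rfl⟩
  rw [res_apply]
  show transferAlong (incl57 κ) x (Additive.ofMul (incl57 κ h)) = _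
  rw [transferAlong_eq (incl57 κ) hf (MonoidHom.id Γ) Function.injective_id,
    IsCosetSystem.transfer_apply]
  have hcoc : ∀ q : Γ ⧸ (incl57 κ).range,
      (IsCosetSystem.ofTransfer (incl57 κ) hf (MonoidHom.id Γ) Function.injective_id).coc q
        (incl57 κ h) = conjKer κ q.out h := by
    intro q
    apply IsCosetSystem.coc_eq (j := q)
    show (q.out)⁻¹ * incl57 κ h = incl57 κ (conjKer κ q.out h) * (q.out)⁻¹
    rw [incl57_conjKer]
    group
  simp only [hcoc]
  rw [AddMonoidHom.finsetSum_apply]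
  simp only [conjAct_apply]
  refine Fintype.sum_equiv (quotEquiv57 κ s hs) _ _ fun q => ?_
  apply apply_conjKer_congr57 κ x
  rw [hs, quotEquiv57_apply]

/-! ## (N2) -/

theorem corRes : CorResStatement.{u} := by
  intro Γ D _ _ κ hκ A _ y
  have hf := incl57_injective κ
  have : (incl57 κ).range.FiniteIndex := finiteIndex_range_incl57 κ
  show transferAlong (incl57 κ) (y.comp (MonoidHom.toAdditive (incl57 κ))) = _
  rw [transferAlong_comp (incl57 κ) hf y]
  congr 1
  rw [← Nat.card_eq_fintype_card]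
  exact Nat.card_congr (quotEquiv57 κ (Function.surjInv hκ) (Function.surjInv_eq hκ))

/-! ## (N3) -/

theorem corConj : CorConjStatement.{u} := by
  intro Γ D _ _ κ g A _ x
  classical
  have hf := incl57_injective κ
  have : (incl57 κ).range.FiniteIndex := finiteIndex_range_incl57 κ
  let _ : Fintype (Γ ⧸ (incl57 κ).range) := (incl57 κ).range.fintypeQuotientOfFiniteIndex
  -- the coset system of the transfer
  have T := IsCosetSystem.ofTransfer (incl57 κ) hf (MonoidHom.id Γ) Function.injective_id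
  -- the coset system of the conjugation
  have hd : ∀ n : kerSub κ, g⁻¹ * ((MonoidHom.id Γ).comp (incl57 κ)) n =
      ((MonoidHom.id Γ).comp (incl57 κ)) (conjKer κ g n) * g⁻¹ := by
    intro n
    show g⁻¹ * incl57 κ n = incl57 κ (conjKer κ g n) * g⁻¹
    rw [incl57_conjKer]
    group
  have Sg := IsCosetSystem.single (ι := (MonoidHom.id Γ).comp (incl57 κ))
    (ι' := (MonoidHom.id Γ).comp (incl57 κ)) T.inj (conjKer κ g) g⁻¹ hd
  have hSg : Sg.transfer x = conjAct κ g x :=
    IsCosetSystem.single_transfer T.inj (conjKer κ g) g⁻¹ hd x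
  -- the product system
  have hprod : IsCosetSystem ((MonoidHom.id Γ).comp (incl57 κ)) (MonoidHom.id Γ)
      (fun z : Unit × (Γ ⧸ (incl57 κ).range) => g⁻¹ * (MonoidHom.id Γ) (z.2.out)⁻¹) := by
    refine IsCosetSystem.prod Sg T ?_
    intro i i' q q' n e
    refine ⟨rfl, ?_⟩
    have e' : g⁻¹ * (q.out)⁻¹ = incl57 κ n * (g⁻¹ * (q'.out)⁻¹) := e
    have h1 : (q.out)⁻¹ * q'.out ∈ (incl57 κ).range := by
      have h2 : (q.out)⁻¹ * q'.out = g * incl57 κ n * g⁻¹ := by
        have h3 : (q.out)⁻¹ = g * incl57 κ n * g⁻¹ * (q'.out)⁻¹ := by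
          calc (q.out)⁻¹ = g * (g⁻¹ * (q.out)⁻¹) := by group
            _ = g * (incl57 κ n * (g⁻¹ * (q'.out)⁻¹)) := by rw [e']
            _ = g * incl57 κ n * g⁻¹ * (q'.out)⁻¹ := by group
        rw [h3]
        group
      rw [h2, mem_range_incl57, map_mul, map_mul, kappa_incl57, mul_one, map_inv,
        mul_inv_cancel]
    have h4 : ((q.out : Γ) : Γ ⧸ (incl57 κ).range) = ((q'.out : Γ) : Γ ⧸ (incl57 κ).range) :=
      QuotientGroup.eq.mpr h1
    rwa [QuotientGroup.out_eq', QuotientGroup.out_eq'] at h4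
  have hcomp := IsCosetSystem.transfer_comp Sg T hprod x
  -- comparison with the transfer system
  have hle : ∀ z : Unit × (Γ ⧸ (incl57 κ).range), ∃ (j : Γ ⧸ (incl57 κ).range) (n : kerSub κ),
      g⁻¹ * (MonoidHom.id Γ) (z.2.out)⁻¹ =
        ((MonoidHom.id Γ).comp (incl57 κ)) n * (MonoidHom.id Γ) (j.out)⁻¹ := by
    rintro ⟨_, q⟩
    obtain ⟨m, hm⟩ := QuotientGroup.mk_out_eq_mul (incl57 κ).range (q.out * g)
    refine ⟨((q.out * g : Γ) : Γ ⧸ (incl57 κ).range),
      toKer57 κ (m : Γ) ((mem_range_incl57 κ).mp m.2), ?_⟩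
    show g⁻¹ * (q.out)⁻¹ = (m : Γ) * (((q.out * g : Γ) : Γ ⧸ (incl57 κ).range).out)⁻¹
    rw [hm]
    group
  have htr : ∀ j j' : Γ ⧸ (incl57 κ).range, ∃ g' : Γ, T.act j g' = j' := by
    intro j j'
    refine ⟨j.out * (j'.out)⁻¹, ?_⟩
    rw [(IsCosetSystem.ofTransfer_act (incl57 κ) hf (MonoidHom.id Γ) Function.injective_id j
      (j.out * (j'.out)⁻¹)).1]
    have h5 : (j.out * (j'.out)⁻¹)⁻¹ • ((j.out : Γ) : Γ ⧸ (incl57 κ).range) =
        ((j'.out : Γ) : Γ ⧸ (incl57 κ).range) := by
      rw [MulAction.Quotient.smul_mk, smul_eq_mul]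
      congr 1
      group
    rwa [QuotientGroup.out_eq', QuotientGroup.out_eq'] at h5
  have hcmp := IsCosetSystem.transfer_eq_of_le hprod T hle htr x
  show transferAlong (incl57 κ) (conjAct κ g x) = transferAlong (incl57 κ) x
  rw [transferAlong_eq (incl57 κ) hf (MonoidHom.id Γ) Function.injective_id,
    transferAlong_eq (incl57 κ) hf (MonoidHom.id Γ) Function.injective_id, ← hSg, hcomp, hcmp]

end Fermat.Agent.S59.MFree.H57
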